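import Fermat.Agent.S55.G.Rec.Loc.UnifH544.Galois
import Fermat.Agent.S55.L.H715.Dict2
import Fermat.Agent.S55.Local.H959.InertiaCard
import Fermat.Agent.S55.L.Unram784
import Fermat.Agent.S55.L.UnrInv.Inertia775

/-!
# S55 / G / REC / LOC, leaf LOC-UNIF (helper544), part 4: dictionary with layer L

`K = K_V` the fixed field of an open `V ≤ Gal(ℚ̄_q/ℚ_q)`, `A` its ring of integers (the unit ball),
`E / K` a finite extension inside `ℚ̄_q`.

* `isInt_iff_norm544`: integrality over `A` is `‖x‖ ≤ 1`;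
* `isUniformizer_of_norm544`, `card_residue544`, `isFrobeniusElt544`: the norm vocabulary of
  `G/Rec/Spec.lean` (`IsUniformizer`, `IsResidueDegree`, `IsFrobenius`) implies the vocabulary of
  layer L (`L.IsUniformizer`, `Nat.card (ResidueField A)`, `L.IsFrobeniusElt`);
* `isUnramifiedExt_cycLevel544`: `K(μ_r) / K` is unramified for `q ∤ r` (trivial inertia,
  `Local.H959.exists_inertia`);
* `frobenius_generates544`: in an unramified extension the restriction of a Frobenius of `V`
  generates the Galois group.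
-/

set_option autoImplicit false
set_option linter.unusedSectionVars false
set_option linter.style.haveILetI false

noncomputable section

namespace Fermat.Agent.S55.G.Rec.Loc.H544

open groupCohomology Fermat.Agent.S55 Fermat.Agent.S55.G.Rec Fermat.Agent.S55.G.Rec.Loc

variable {q : ℕ} [Fact q.Prime]

local notation "Gq" => (PadicAlgCl q ≃ₐ[ℚ_[q]] PadicAlgCl q)

section Dict

variable {V : Subgroup (PadicAlgCl q ≃ₐ[ℚ_[q]] PadicAlgCl q)} (A : ValuationSubring (fixedFld q V))
  (hAmem : ∀ x : fixedFld q V, x ∈ A ↔ ‖(x : PadicAlgCl q)‖ ≤ 1)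
  (E : IntermediateField (fixedFld q V) (PadicAlgCl q))

theorem isScalarTower_mid544 : IsScalarTower ℚ_[q] E (PadicAlgCl q) :=
  IsScalarTower.of_algebraMap_eq fun _ => rfl

include hAmem in
/-- Integrality over `A` is `‖x‖ ≤ 1`. -/
theorem isInt_iff_norm544 (x : E) :
    Local.IsInt (↥A) (fixedFld q V) E x ↔ ‖(x : PadicAlgCl q)‖ ≤ 1 := by
  constructor
  · rintro ⟨p, hp, hpx⟩
    refine norm_le_one_of_eval₂_eq_zero544
      ((algebraMap E (PadicAlgCl q)).comp (Local.toL (↥A) (fixedFld q V) E)) ?_ p hp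
      (x : PadicAlgCl q) ?_
    · intro a
      exact (hAmem (a : fixedFld q V)).1 a.2
    · have := congrArg (algebraMap E (PadicAlgCl q)) hpx
      rw [Polynomial.hom_eval₂, map_zero] at this
      exact this
  · intro hx
    haveI := isScalarTower_mid544 E
    have hinj : Function.Injective (algebraMap E (PadicAlgCl q)) :=
      (algebraMap E (PadicAlgCl q)).injective
    have hmin : minpoly ℚ_[q] (x : PadicAlgCl q) = minpoly ℚ_[q] x :=
      minpoly.algebraMap_eq hinj x
    have hint : IsIntegral ℚ_[q] x := by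
      rw [← isIntegral_algebraMap_iff hinj]
      exact Algebra.IsIntegral.isIntegral _
    have hlift : (minpoly ℚ_[q] x).map (algebraMap ℚ_[q] E) ∈
        Polynomial.lifts (Local.toL (↥A) (fixedFld q V) E) := by
      rw [Polynomial.lifts_iff_coeff_lifts]
      intro n
      rw [Polynomial.coeff_map]
      have hc : ‖(minpoly ℚ_[q] x).coeff n‖ ≤ 1 := by
        rw [← hmin]
        exact norm_coeff_minpoly_le_one544 q hx n
      have hcA : algebraMap ℚ_[q] (fixedFld q V) ((minpoly ℚ_[q] x).coeff n) ∈ A := by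
        rw [hAmem]
        have : ((algebraMap ℚ_[q] (fixedFld q V) ((minpoly ℚ_[q] x).coeff n) : fixedFld q V) :
            PadicAlgCl q) = algebraMap ℚ_[q] (PadicAlgCl q) ((minpoly ℚ_[q] x).coeff n) := rfl
        rw [this, PadicAlgCl.norm_extends]
        exact hc
      exact ⟨⟨_, hcA⟩, rfl⟩
    obtain ⟨p, hpmap, -, hpm⟩ := Polynomial.lifts_and_natDegree_eq_and_monic hlift
      ((minpoly.monic hint).map _)
    refine ⟨p, hpm, ?_⟩
    rw [← Polynomial.eval_map, hpmap, Polynomial.eval_map_algebraMap, minpoly.aeval]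

/-! ### The ring of integers of `K` -/

include hAmem in
theorem norm_coe_le_one544 (a : A) : ‖((a : fixedFld q V) : PadicAlgCl q)‖ ≤ 1 :=
  (hAmem _).1 a.2

include hAmem in
theorem mem_maximalIdeal_iff544 (a : A) :
    a ∈ IsLocalRing.maximalIdeal A ↔ ‖((a : fixedFld q V) : PadicAlgCl q)‖ < 1 :=
  mem_maximalIdeal_iff_norm544 (algebraMap (fixedFld q V) (PadicAlgCl q)) A hAmem a

include hAmem in
theorem norm_unit_eq_one544 (u : Aˣ) : ‖(((u : A) : fixedFld q V) : PadicAlgCl q)‖ = 1 := by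
  refine le_antisymm (norm_coe_le_one544 A hAmem _) ?_
  by_contra hlt
  rw [not_le] at hlt
  have h1 := (mem_maximalIdeal_iff544 A hAmem (u : A)).2 hlt
  exact (IsLocalRing.mem_maximalIdeal _).1 h1 u.isUnit

variable [IsDiscreteValuationRing A]

include hAmem in
/-- A norm-uniformizer is a uniformizer of `A`. -/
theorem isUniformizer_of_norm544 (π : fixedFld q V) (hπ0 : π ≠ 0)
    (hπ1 : ‖(π : PadicAlgCl q)‖ < 1)
    (hmax : ∀ x : fixedFld q V, ‖(x : PadicAlgCl q)‖ < 1 →
      ‖(x : PadicAlgCl q)‖ ≤ ‖(π : PadicAlgCl q)‖) : L.IsUniformizer A π := by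
  have hπA : π ∈ A := (hAmem π).2 hπ1.le
  refine ⟨hπA, ?_⟩
  obtain ⟨ϖ, hϖ⟩ := IsDiscreteValuationRing.exists_irreducible A
  have hπA0 : (⟨π, hπA⟩ : A) ≠ 0 := fun h => hπ0 (congrArg Subtype.val h)
  obtain ⟨k, u, hku⟩ := IsDiscreteValuationRing.eq_unit_mul_pow_irreducible hπA0 hϖ
  have hnϖ : ‖((ϖ : fixedFld q V) : PadicAlgCl q)‖ < 1 :=
    (mem_maximalIdeal_iff544 A hAmem ϖ).1
      ((IsLocalRing.mem_maximalIdeal _).2 hϖ.not_isUnit)
  have hϖ0 : 0 < ‖((ϖ : fixedFld q V) : PadicAlgCl q)‖ := by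
    rw [norm_pos_iff]
    intro h0
    apply hϖ.ne_zero
    apply Subtype.ext
    exact_mod_cast h0
  have hle : ‖((ϖ : fixedFld q V) : PadicAlgCl q)‖ ≤ ‖(π : PadicAlgCl q)‖ := hmax _ hnϖ
  have hnorm : ‖(π : PadicAlgCl q)‖ = ‖((ϖ : fixedFld q V) : PadicAlgCl q)‖ ^ k := by
    have h1 : (π : PadicAlgCl q) =
        (((u : A) : fixedFld q V) : PadicAlgCl q) * ((ϖ : fixedFld q V) : PadicAlgCl q) ^ k := by
      have := congrArg (fun a : A => ((a : fixedFld q V) : PadicAlgCl q)) hku
      simpa using this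
    rw [h1, norm_mul, norm_pow, norm_unit_eq_one544 A hAmem u, one_mul]
  have hk1 : k = 1 := by
    rcases Nat.lt_trichotomy k 1 with h | h | h
    · have hk0 : k = 0 := by omega
      rw [hk0, pow_zero] at hnorm
      rw [hnorm] at hπ1
      exact absurd hπ1 (lt_irrefl _)
    · exact h
    · exfalso
      have h2 : ‖((ϖ : fixedFld q V) : PadicAlgCl q)‖ ^ k <
          ‖((ϖ : fixedFld q V) : PadicAlgCl q)‖ ^ 1 :=
        pow_lt_pow_right_of_lt_one₀ hϖ0 hnϖ h
      rw [pow_one, ← hnorm] at h2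
      exact absurd hle (not_le.2 h2)
  rw [hku, hk1, pow_one]
  exact (irreducible_units_mul u).2 hϖ

variable [Finite (IsLocalRing.ResidueField A)]

include hAmem in
/-- The residue field of `A` has `q ^ f` elements, `f` the residue degree of `V`. -/
theorem card_residue544 (f : ℕ) (hf : IsResidueDegree q V f) :
    Nat.card (IsLocalRing.ResidueField A) = q ^ f := by
  classical
  letI : Fintype (IsLocalRing.ResidueField A) := Fintype.ofFinite _
  have hq0 : ((q : ℕ) : IsLocalRing.ResidueField A) = 0 := by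
    have h1 : ((q : ℕ) : A) ∈ IsLocalRing.maximalIdeal A := by
      rw [mem_maximalIdeal_iff544 A hAmem]
      have : ((((q : ℕ) : A) : fixedFld q V) : PadicAlgCl q) = (q : PadicAlgCl q) := by
        simp
      rw [this]
      exact norm_prime_lt_one544 q
    have h2 := (IsLocalRing.residue_eq_zero_iff ((q : ℕ) : A)).2 h1
    rwa [map_natCast] at h2
  haveI : CharP (IsLocalRing.ResidueField A) q :=
    (CharP.charP_iff_prime_eq_zero (Fact.out : q.Prime)).2 hq0
  obtain ⟨n, -, hn⟩ := FiniteField.card (IsLocalRing.ResidueField A) q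
  have hq1 : 1 < q := (Fact.out : q.Prime).one_lt
  obtain ⟨hf0, hf1, hf2⟩ := hf
  -- `f ≤ n`
  have h1 : f ≤ n := by
    refine hf2 n n.pos fun x hxfix hx1 => ?_
    have hxK : x ∈ fixedFld q V := (IntermediateField.mem_fixedField_iff _ _).2 hxfix
    have hxA : (⟨x, hxK⟩ : fixedFld q V) ∈ A := (hAmem _).2 hx1
    have h3 : IsLocalRing.residue A ((⟨⟨x, hxK⟩, hxA⟩ : A) ^ q ^ (n : ℕ) - ⟨⟨x, hxK⟩, hxA⟩) = 0 := by
      rw [map_sub, map_pow, ← hn, FiniteField.pow_card, sub_self]
    have h4 := (IsLocalRing.residue_eq_zero_iff _).1 h3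
    rw [mem_maximalIdeal_iff544 A hAmem] at h4
    exact h4
  -- `n ≤ f`
  have h2 : (n : ℕ) ≤ f := by
    have hroot : ∀ a : IsLocalRing.ResidueField A, a ^ q ^ f = a := by
      intro a
      obtain ⟨x, rfl⟩ := IsLocalRing.residue_surjective a
      have hxfix : IsFixedBy q V ((x : fixedFld q V) : PadicAlgCl q) :=
        (IntermediateField.mem_fixedField_iff _ _).1 (x : fixedFld q V).2
      have h3 := hf1 _ hxfix (norm_coe_le_one544 A hAmem x)
      have h4 : x ^ q ^ f - x ∈ IsLocalRing.maximalIdeal A := by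
        rw [mem_maximalIdeal_iff544 A hAmem]
        exact h3
      have h5 := (IsLocalRing.residue_eq_zero_iff _).2 h4
      rw [map_sub, map_pow, sub_eq_zero] at h5
      exact h5
    have hP0 : (Polynomial.X ^ q ^ f - Polynomial.X :
        Polynomial (IsLocalRing.ResidueField A)) ≠ 0 :=
      FiniteField.X_pow_card_pow_sub_X_ne_zero _ hf0.ne' hq1
    have hdeg : (Polynomial.X ^ q ^ f - Polynomial.X :
        Polynomial (IsLocalRing.ResidueField A)).natDegree = q ^ f :=
      FiniteField.X_pow_card_pow_sub_X_natDegree_eq _ hf0.ne' hq1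
    have hsub : (Finset.univ : Finset (IsLocalRing.ResidueField A)) ⊆
        (Polynomial.X ^ q ^ f - Polynomial.X :
          Polynomial (IsLocalRing.ResidueField A)).roots.toFinset := by
      intro a _
      rw [Multiset.mem_toFinset, Polynomial.mem_roots hP0, Polynomial.IsRoot.def]
      simp [hroot a]
    have hcard : Fintype.card (IsLocalRing.ResidueField A) ≤ q ^ f := by
      calc Fintype.card (IsLocalRing.ResidueField A)
          = (Finset.univ : Finset (IsLocalRing.ResidueField A)).card := rfl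
        _ ≤ _ := Finset.card_le_card hsub
        _ ≤ Multiset.card (Polynomial.X ^ q ^ f - Polynomial.X :
            Polynomial (IsLocalRing.ResidueField A)).roots := Multiset.toFinset_card_le _
        _ ≤ _ := Polynomial.card_roots' _
        _ = q ^ f := hdeg
    rw [hn] at hcard
    exact (Nat.pow_le_pow_iff_right hq1).1 hcard
  rw [Nat.card_eq_fintype_card, hn, le_antisymm h2 h1]

/-! ### The ring of integers of `E` -/

variable [IsAdicComplete (IsLocalRing.maximalIdeal A) A] [FiniteDimensional (fixedFld q V) E]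

/-- The ring of integers of `E`. -/
def intE544 : ValuationSubring E := L.H715.intVS (↥A) (fixedFld q V) E

theorem isLocalRingOfIntegers_intE544 : L.IsLocalRingOfIntegers (intE544 A E) :=
  L.H715.isLocalRingOfIntegers_intVS _ _ _

include hAmem in
theorem mem_intE544 (x : E) : x ∈ intE544 A E ↔ ‖(x : PadicAlgCl q)‖ ≤ 1 :=
  (L.H715.mem_intVS_iff _ _ _ x).trans (isInt_iff_norm544 A hAmem E x)

include hAmem in
theorem mem_nonunits_intE544 (x : E) :
    x ∈ (intE544 A E).nonunits ↔ ‖(x : PadicAlgCl q)‖ < 1 :=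
  mem_nonunits_iff_norm544 (algebraMap E (PadicAlgCl q)) _ (mem_intE544 A hAmem E) x

include hAmem in
/-- The restriction of a Frobenius of `V` is a Frobenius element in the sense of layer L. -/
theorem isFrobeniusElt544 [Normal (fixedFld q V) E]
    (φ : PadicAlgCl q ≃ₐ[ℚ_[q]] PadicAlgCl q) (hφ : IsFrobenius q V φ) :
    L.IsFrobeniusElt (fixedFld q V) E (resHom q V E ⟨φ, hφ.1⟩) := by
  obtain ⟨hφV, f, hf, hfrob⟩ := id hφ
  refine ⟨A, intE544 A E, ⟨inferInstance, inferInstance, inferInstance⟩,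
    isLocalRingOfIntegers_intE544 A E, fun x hx => ?_⟩
  rw [card_residue544 A hAmem f hf, mem_nonunits_intE544 A hAmem E]
  have hx1 := (mem_intE544 A hAmem E x).1 hx
  have h := hfrob (x : PadicAlgCl q) hx1
  have e : ((resHom q V E ⟨φ, hφ.1⟩ x - x ^ q ^ f : E) : PadicAlgCl q) =
      φ (x : PadicAlgCl q) - (x : PadicAlgCl q) ^ q ^ f := by
    rw [AddSubgroupClass.coe_sub, SubmonoidClass.coe_pow, resHom_apply_coe]
  rw [e]
  exact h

include hAmem in
/-- Elements of the maximal ideal (in the sense of `Local.H959.InMax`) have norm `< 1`. -/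
theorem norm_lt_one_of_inMax544 (y : E) (hy : Local.H959.InMax (↥A) (fixedFld q V) E y) :
    ‖(y : PadicAlgCl q)‖ < 1 := by
  by_contra hge
  rw [not_lt] at hge
  have hy0 : y ≠ 0 := by
    rintro rfl
    simp at hge
    linarith
  have hinv : ‖((y⁻¹ : E) : PadicAlgCl q)‖ ≤ 1 := by
    have : ((y⁻¹ : E) : PadicAlgCl q) = (y : PadicAlgCl q)⁻¹ := rfl
    rw [this, norm_inv]
    exact inv_le_one_of_one_le₀ hge
  exact hy.2 y⁻¹ ((isInt_iff_norm544 A hAmem E _).2 hinv) (mul_inv_cancel₀ hy0)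

/-! ### `K(μ_r) / K` is unramified -/

omit [FiniteDimensional (fixedFld q V) E] in
include hAmem in
/-- **`K(μ_r) / K` is unramified** for `q ∤ r`. -/
theorem isUnramifiedExt_cycLevel544 {r : ℕ} (hr : 0 < r) (hqr : ¬ q ∣ r) :
    L.IsUnramifiedExt (fixedFld q V) (cycLevel544 q V r) := by
  haveI := finiteDimensional_cycLevel544 q V r
  haveI := isGalois_cycLevel544 q V r
  obtain ⟨J, hJ, hJcard⟩ :=
    Local.H959.exists_inertia (↥A) (fixedFld q V) (fixedFld q V) (cycLevel544 q V r)
  have hnr : ‖(r : PadicAlgCl q)‖ = 1 := H533.norm_natCast_padicAlgCl533 q hqr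
  have hJbot : J = ⊥ := by
    rw [eq_bot_iff]
    intro σ hσ
    rw [Subgroup.mem_bot]
    rw [hJ] at hσ
    apply eq_one_of_fixes_roots544 q V hr σ
    intro x hx
    have hx1 : ‖(x : PadicAlgCl q)‖ ≤ 1 := by
      have h1 : ‖(x : PadicAlgCl q)‖ ^ r = 1 := by rw [← norm_pow, hx, norm_one]
      exact ((pow_eq_one_iff_of_nonneg (norm_nonneg _) hr.ne').1 h1).le
    have hint : Local.IsInt (↥A) (fixedFld q V) (cycLevel544 q V r) x :=
      (isInt_iff_norm544 A hAmem _ x).2 hx1
    have hlt := norm_lt_one_of_inMax544 A hAmem _ _ (hσ x hint)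
    have hσx : ((σ x : cycLevel544 q V r) : PadicAlgCl q) ^ r = 1 := by
      have h2 : (σ x) ^ r = 1 := by
        rw [← map_pow]
        have : x ^ r = 1 := Subtype.ext (by simpa using hx)
        rw [this, map_one]
      have := congrArg (fun y : cycLevel544 q V r => (y : PadicAlgCl q)) h2
      simpa using this
    have e : ((σ x - x : cycLevel544 q V r) : PadicAlgCl q) =
        ((σ x : cycLevel544 q V r) : PadicAlgCl q) - (x : PadicAlgCl q) := rfl
    rw [e] at hlt
    exact Subtype.ext (H533.rootsOfUnity_eq_of_norm_sub_lt_one533 hnr hx hσx hlt)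
  obtain ⟨ϖK, hK⟩ := Local.H608.existsUnif (↥A) (fixedFld q V) (fixedFld q V)
  obtain ⟨ϖE, hE⟩ := Local.H608.existsUnif (↥A) (fixedFld q V) (cycLevel544 q V r)
  have h1 := hJcard ϖK ϖE hK hE
  have hunr : Local.IsUnram (↥A) (fixedFld q V) (cycLevel544 q V r) (fixedFld q V) :=
    (Local.H959.isUnram_iff_ramExp_eq_one hK hE h1).2 (by rw [hJbot, Subgroup.card_bot])
  exact L.H715.isUnramifiedExt_of_isUnram A _ hunr

/-! ### The Frobenius generates -/

include hAmem in
/-- In an unramified extension `E / K_V` the restriction of a Frobenius of `V` generates the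
Galois group. -/
theorem frobenius_generates544 [L.IsLocalFld (fixedFld q V)]
    (hfix : (fixedFld q V).fixingSubgroup = V) [IsGalois (fixedFld q V) E]
    (hunr : L.IsUnramifiedExt (fixedFld q V) E)
    (φ : PadicAlgCl q ≃ₐ[ℚ_[q]] PadicAlgCl q) (hφ : IsFrobenius q V φ)
    (g : E ≃ₐ[fixedFld q V] E) : g ∈ Subgroup.zpowers (resHom q V E ⟨φ, hφ.1⟩) := by
  obtain ⟨-, φ', hφ', hgen⟩ := L.u784_unramifiedCyclic (fixedFld q V) E hunr
  suffices h : φ' = resHom q V E ⟨φ, hφ.1⟩ by
    rw [← h]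
    exact hgen g
  obtain ⟨A', B', hA', hB', hfr⟩ := hφ'
  have hAA' : A' = A := L.u784_ringOfIntegersUnique (fixedFld q V) A' A hA'
    ⟨inferInstance, inferInstance, inferInstance⟩
  haveI : L.IsLocalFld E := L.H715.isLocalFld_ext A E
  have hBB' : B' = intE544 A E :=
    L.u784_ringOfIntegersUnique E B' _ hB' (isLocalRingOfIntegers_intE544 A E)
  subst hAA'
  subst hBB'
  obtain ⟨hφV, f, hf, hfrob⟩ := id hφ
  have hcard := card_residue544 A' hAmem f hf
  have hg : ∀ x ∈ intE544 A' E,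
      (φ'⁻¹ * resHom q V E ⟨φ, hφ.1⟩) x - x ∈ (intE544 A' E).nonunits := by
    intro x hx
    rw [mem_nonunits_intE544 A' hAmem E]
    have hx1 := (mem_intE544 A' hAmem E x).1 hx
    have h1 : ‖((resHom q V E ⟨φ, hφ.1⟩ x - x ^ q ^ f : E) : PadicAlgCl q)‖ < 1 := by
      have e : ((resHom q V E ⟨φ, hφ.1⟩ x - x ^ q ^ f : E) : PadicAlgCl q) =
          φ (x : PadicAlgCl q) - (x : PadicAlgCl q) ^ q ^ f := by
        rw [AddSubgroupClass.coe_sub, SubmonoidClass.coe_pow, resHom_apply_coe]
      rw [e]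
      exact hfrob _ hx1
    have h2 : ‖((φ' x - x ^ q ^ f : E) : PadicAlgCl q)‖ < 1 := by
      have := hfr x hx
      rw [hcard, mem_nonunits_intE544 A' hAmem E] at this
      exact this
    have h3 : ‖((resHom q V E ⟨φ, hφ.1⟩ x - φ' x : E) : PadicAlgCl q)‖ < 1 := by
      have e : ((resHom q V E ⟨φ, hφ.1⟩ x - φ' x : E) : PadicAlgCl q) =
          ((resHom q V E ⟨φ, hφ.1⟩ x - x ^ q ^ f : E) : PadicAlgCl q) -
            ((φ' x - x ^ q ^ f : E) : PadicAlgCl q) := by
        simp only [AddSubgroupClass.coe_sub]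
        ring
      rw [e]
      exact norm_sub_lt_one544 q h1 h2
    have h4 : (φ'⁻¹ * resHom q V E ⟨φ, hφ.1⟩) x - x =
        φ'⁻¹ (resHom q V E ⟨φ, hφ.1⟩ x - φ' x) := by
      rw [map_sub, AlgEquiv.mul_apply]
      congr 1
      exact (φ'.symm_apply_apply x).symm
    rw [h4, norm_algEquiv544 q V hfix E φ'⁻¹]
    exact h3
  have h5 := L.UnrInv.unramifiedInertia775 (fixedFld q V) E hunr (intE544 A' E)
    (isLocalRingOfIntegers_intE544 A' E) _ hg
  exact inv_mul_eq_one.1 h5

end Dict

end Fermat.Agent.S55.G.Rec.Loc.H544
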