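import Fermat.Agent.S55.G.Rec.H473Cyclic

/-!
# S55 / G / REC / LOC, leaf LOC-UNIF (helper544), part 2: cup classes on a cyclic group

`G = ⟨σ⟩` cyclic of order `d` with generating character `ψ : G → ℤ/d` (`ψ σ = 1`), and an arbitrary
character `χ : G → ℤ/n`.  Then for every invariant `a`

  `[cupChar a χ] = (χ̃(σ) d / n) • [cupChar a ψ]`   in `H²(G, A)`

(`cc_eq_nsmul_cc544`), where `χ̃(σ) ∈ {0, …, n-1}` is the canonical lift.
-/

set_option autoImplicit false
set_option linter.unusedSectionVars false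

open CategoryTheory groupCohomology

namespace Fermat.Agent.S55.G.Rec.Loc.H544

open Fermat.Agent.S55.G.Rec

section Arith

variable {G : Type} [Group G] {n d : ℕ} [NeZero n] [NeZero d]
  (χ : G →* Multiplicative (ZMod n)) {ψ : G →* Multiplicative (ZMod d)} {σ : G}

theorem lift_pow544 (σ : G) (m : ℕ) : lift χ (σ ^ m) = (lift χ σ * m) % n := by
  unfold lift
  rw [map_pow, toAdd_pow, nsmul_eq_mul, ZMod.val_mul, ZMod.val_natCast, Nat.mod_mul_mod,
    mul_comm]

theorem lift_eq544 (h : IsGenChar ψ σ) (g : G) : lift χ g = (lift χ σ * lift ψ g) % n := by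
  conv_lhs => rw [← h.pow_lift g]
  exact lift_pow544 χ σ _

theorem dvd_lift_mul544 (h : IsGenChar ψ σ) : n ∣ lift χ σ * d := by
  have h1 := lift_pow544 χ σ d
  rw [h.pow_card, lift_map_one] at h1
  exact Nat.dvd_of_mod_eq_zero h1.symm

/-- The correction cochain `β(g) = (χ̃(σ) ψ̃(g)) / n`. -/
def scaleIdx544 (χ : G →* Multiplicative (ZMod n)) (ψ : G →* Multiplicative (ZMod d)) (σ : G)
    (g : G) : ℕ :=
  (lift χ σ * lift ψ g) / n

theorem scaleIdx_spec544 (h : IsGenChar ψ σ) (g : G) :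
    lift χ σ * lift ψ g = n * scaleIdx544 χ ψ σ g + lift χ g := by
  rw [lift_eq544 χ h g, scaleIdx544]
  exact (Nat.div_add_mod _ _).symm

/-- The key identity of carries. -/
theorem carry_scale544 (h : IsGenChar ψ σ) (g t : G) :
    carry χ g t + scaleIdx544 χ ψ σ g + scaleIdx544 χ ψ σ t =
      scaleIdx544 χ ψ σ (g * t) + (lift χ σ * d / n) * carry ψ g t := by
  have hn : 0 < n := Nat.pos_of_ne_zero (NeZero.ne n)
  obtain ⟨s, hs⟩ := dvd_lift_mul544 χ h
  have hs' : lift χ σ * d / n = s := by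
    rw [hs]
    exact Nat.mul_div_cancel_left s hn
  rw [hs']
  have e1 := lift_add_lift χ g t
  have e2 := scaleIdx_spec544 χ h g
  have e3 := scaleIdx_spec544 χ h t
  have e4 := scaleIdx_spec544 χ h (g * t)
  have e5 := lift_add_lift ψ g t
  apply Nat.eq_of_mul_eq_mul_left hn
  have e5' : lift χ σ * lift ψ g + lift χ σ * lift ψ t =
      lift χ σ * lift ψ (g * t) + n * s * carry ψ g t := by
    rw [← mul_add, e5, mul_add, ← mul_assoc, hs]
  have e6 : n * (s * carry ψ g t) = n * s * carry ψ g t := (mul_assoc _ _ _).symm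
  rw [mul_add, mul_add, mul_add, e6]
  omega

end Arith

section Class

variable {k G : Type} [CommRing k] [Group G] {n d : ℕ} [NeZero n] [NeZero d]
  (A : Rep.{0} k G) (χ : G →* Multiplicative (ZMod n)) {ψ : G →* Multiplicative (ZMod d)} {σ : G}

/-- Cochain level: `cupChar a χ - s • cupChar a ψ = d (g ↦ - β(g) • a)`. -/
theorem cupChar_sub_nsmul544 (h : IsGenChar ψ σ) (a : A.ρ.invariants) :
    (cupChar A χ a : G × G → A.V) - (lift χ σ * d / n) • (cupChar A ψ a : G × G → A.V) =
      (d₁₂ A).hom (fun g => - (scaleIdx544 χ ψ σ g • (a : A.V))) := by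
  funext ⟨g, t⟩
  have ha : ∀ g : G, A.ρ g (a : A.V) = a := a.2
  have key := carry_scale544 χ h g t
  have key' : carry χ g t • (a : A.V) + scaleIdx544 χ ψ σ g • (a : A.V) +
      scaleIdx544 χ ψ σ t • (a : A.V) =
      scaleIdx544 χ ψ σ (g * t) • (a : A.V) +
        (lift χ σ * d / n) • (carry ψ g t • (a : A.V)) := by
    rw [← add_nsmul, ← add_nsmul, ← mul_nsmul', ← add_nsmul, key]
  simp only [Pi.sub_apply, Pi.smul_apply, cupChar_apply, d₁₂_hom_apply, map_neg, map_nsmul, ha]
  generalize carry χ g t • (a : A.V) = u at key' ⊢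
  generalize scaleIdx544 χ ψ σ g • (a : A.V) = v at key' ⊢
  generalize scaleIdx544 χ ψ σ t • (a : A.V) = w at key' ⊢
  generalize scaleIdx544 χ ψ σ (g * t) • (a : A.V) = z at key' ⊢
  generalize (lift χ σ * d / n) • carry ψ g t • (a : A.V) = y at key' ⊢
  have hu : u = z + y - w - v := by
    rw [← key']
    abel
  rw [hu]
  abel

/-- **Scaling of cup classes on a cyclic group.** -/
theorem cc_eq_nsmul_cc544 (h : IsGenChar ψ σ) (a : A.ρ.invariants) :
    (H2π A).hom (cupChar A χ a) = (lift χ σ * d / n) • (H2π A).hom (cupChar A ψ a) := by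
  rw [← map_nsmul]
  change H2π A (cupChar A χ a) = H2π A ((lift χ σ * d / n) • cupChar A ψ a)
  rw [H2π_eq_iff]
  change (cupChar A χ a : G × G → A.V) - (lift χ σ * d / n) • (cupChar A ψ a : G × G → A.V) ∈
    coboundaries₂ A
  rw [cupChar_sub_nsmul544 A χ h a]
  exact LinearMap.mem_range_self _ _

end Class

end Fermat.Agent.S55.G.Rec.Loc.H544
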