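import Fermat.Agent.S55.G.Rec.Spec
import Fermat.Agent.S55.L.Inst63
import Fermat.Agent.S55.G.Rec.CycloFrobH533

/-!
# S55 / G / REC / LOC, leaf LOC-UNIF (helper544), part 1: the norm of `PadicAlgCl q`

* `norm_galois544`: automorphisms of `ℚ̄_q / ℚ_q` are isometries;
* `norm_coeff_minpoly_le_one544`: `‖x‖ ≤ 1` implies that the minimal polynomial of `x` over `ℚ_q`
  has coefficients of norm `≤ 1`;
* `norm_le_one_of_eval₂_eq_zero544`: roots of monic polynomials with coefficients of norm `≤ 1`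
  have norm `≤ 1` (ultrametric fields);
* `exists_rootOfUnity_near544`: Teichmüller representatives: every `x` of norm `1` is congruent
  modulo the maximal ideal to a root of unity of order prime to `q`;
* `isInertial_of_fixes_roots544`: an automorphism fixing all roots of unity of order prime to `q`
  is inertial.
-/

set_option autoImplicit false

noncomputable section

namespace Fermat.Agent.S55.G.Rec.Loc.H544

open Polynomial

section Ultra

variable {R L : Type*} [CommRing R] [NormedField L] [IsUltrametricDist L]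

/-- Roots of monic polynomials with coefficients of norm `≤ 1` have norm `≤ 1`. -/
theorem norm_le_one_of_eval₂_eq_zero544 (φ : R →+* L) (hφ : ∀ r, ‖φ r‖ ≤ 1) (p : R[X])
    (hp : p.Monic) (x : L) (hx : p.eval₂ φ x = 0) : ‖x‖ ≤ 1 := by
  by_contra hlt
  rw [not_le] at hlt
  have hx0 : 0 < ‖x‖ := lt_trans zero_lt_one hlt
  rw [eval₂_eq_sum_range, Finset.sum_range_succ, hp.coeff_natDegree, map_one, one_mul] at hx
  have h1 : x ^ p.natDegree = - ∑ i ∈ Finset.range p.natDegree, φ (p.coeff i) * x ^ i :=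
    eq_neg_of_add_eq_zero_right hx
  rcases Nat.eq_zero_or_pos p.natDegree with h0 | hpos
  · rw [h0] at h1
    simp at h1
  have h2 : ‖∑ i ∈ Finset.range p.natDegree, φ (p.coeff i) * x ^ i‖ ≤
      ‖x‖ ^ (p.natDegree - 1) := by
    refine IsUltrametricDist.norm_sum_le_of_forall_le_of_nonneg (by positivity) ?_
    intro i hi
    rw [Finset.mem_range] at hi
    rw [norm_mul, norm_pow]
    calc ‖φ (p.coeff i)‖ * ‖x‖ ^ i ≤ 1 * ‖x‖ ^ i :=
          mul_le_mul_of_nonneg_right (hφ _) (by positivity)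
      _ = ‖x‖ ^ i := one_mul _
      _ ≤ ‖x‖ ^ (p.natDegree - 1) := pow_le_pow_right₀ hlt.le (by omega)
  have h3 : ‖x‖ ^ p.natDegree ≤ ‖x‖ ^ (p.natDegree - 1) := by
    rw [← norm_pow, h1, norm_neg]
    exact h2
  have h4 : ‖x‖ ^ (p.natDegree - 1) < ‖x‖ ^ p.natDegree :=
    pow_lt_pow_right₀ hlt (by omega)
  exact absurd h3 (not_le.2 h4)

end Ultra

variable (q : ℕ) [Fact q.Prime]

local notation "Gq" => (PadicAlgCl q ≃ₐ[ℚ_[q]] PadicAlgCl q)

/-- Automorphisms of `ℚ̄_q / ℚ_q` are isometries. -/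
theorem norm_galois544 (τ : Gq) (x : PadicAlgCl q) : ‖τ x‖ = ‖x‖ := by
  rw [← PadicAlgCl.spectralNorm_eq, ← PadicAlgCl.spectralNorm_eq]
  exact (spectralNorm_eq_of_equiv τ x).symm

/-- `‖x‖ ≤ 1` implies that the minimal polynomial of `x` over `ℚ_q` has coefficients of norm
`≤ 1`. -/
theorem norm_coeff_minpoly_le_one544 {x : PadicAlgCl q} (hx : ‖x‖ ≤ 1) (n : ℕ) :
    ‖(minpoly ℚ_[q] x).coeff n‖ ≤ 1 := by
  have hint : IsIntegral ℚ_[q] x := Algebra.IsIntegral.isIntegral x
  have h : spectralValue (minpoly ℚ_[q] x) ≤ 1 := by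
    have h1 : spectralNorm ℚ_[q] (PadicAlgCl q) x = ‖x‖ := PadicAlgCl.spectralNorm_eq q x
    rw [spectralNorm] at h1
    rw [h1]
    exact hx
  exact (spectralValue_le_one_iff (minpoly.monic hint)).1 h n

/-- An ultrametric inequality. -/
theorem norm_sub_lt_one544 {x y : PadicAlgCl q} (hx : ‖x‖ < 1) (hy : ‖y‖ < 1) : ‖x - y‖ < 1 := by
  rw [sub_eq_add_neg]
  refine lt_of_le_of_lt (IsUltrametricDist.norm_add_le_max _ _) (max_lt hx ?_)
  rwa [norm_neg]

theorem norm_add_lt_one544 {x y : PadicAlgCl q} (hx : ‖x‖ < 1) (hy : ‖y‖ < 1) : ‖x + y‖ < 1 :=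
  lt_of_le_of_lt (IsUltrametricDist.norm_add_le_max _ _) (max_lt hx hy)

/-! ### Valuation subrings cut out by a norm -/

section NormVS

variable {F : Type*} [Field F] {L : Type*} [NormedField L] (ι : F →+* L)
  (A : ValuationSubring F) (hA : ∀ x : F, x ∈ A ↔ ‖ι x‖ ≤ 1)

include hA in
/-- The nonunits of a valuation subring cut out by a norm are the elements of norm `< 1`. -/
theorem mem_nonunits_iff_norm544 (x : F) : x ∈ A.nonunits ↔ ‖ι x‖ < 1 := by
  rw [ValuationSubring.mem_nonunits_iff_or]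
  by_cases hx : x = 0
  · subst hx
    simp
  · have hι : ι x ≠ 0 := (map_ne_zero ι).2 hx
    have hpos : 0 < ‖ι x‖ := norm_pos_iff.2 hι
    rw [hA, map_inv₀, norm_inv, not_le]
    constructor
    · rintro (h | h)
      · exact absurd h hx
      · exact (one_lt_inv₀ hpos).1 h
    · intro h
      exact Or.inr ((one_lt_inv₀ hpos).2 h)

include hA in
theorem mem_maximalIdeal_iff_norm544 (a : A) :
    a ∈ IsLocalRing.maximalIdeal A ↔ ‖ι (a : F)‖ < 1 := by
  rw [← ValuationSubring.coe_mem_nonunits_iff, mem_nonunits_iff_norm544 ι A hA]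

end NormVS

/-! ### Teichmüller representatives -/

/-- In an ultrametric normed field, a product of elements of norm `≥ 1` has norm `≥ 1`. -/
theorem one_le_norm_multiset_prod544 {L : Type*} [NormedField L] (s : Multiset L)
    (h : ∀ a ∈ s, 1 ≤ ‖a‖) : 1 ≤ ‖s.prod‖ := by
  induction s using Multiset.induction_on with
  | empty => simp
  | cons a s ih =>
    rw [Multiset.prod_cons, norm_mul]
    have h1 : 1 ≤ ‖a‖ := h a (Multiset.mem_cons_self a s)
    have h2 : 1 ≤ ‖s.prod‖ := ih fun b hb => h b (Multiset.mem_cons_of_mem hb)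
    calc (1 : ℝ) = 1 * 1 := (one_mul 1).symm
      _ ≤ ‖a‖ * ‖s.prod‖ := mul_le_mul h1 h2 zero_le_one (le_trans zero_le_one h1)

/-- `‖(q : ℚ̄_q)‖ < 1`. -/
theorem norm_prime_lt_one544 : ‖(q : PadicAlgCl q)‖ < 1 := by
  have h1 : ((q : ℚ_[q]) : PadicAlgCl q) = (q : PadicAlgCl q) :=
    map_natCast (algebraMap ℚ_[q] (PadicAlgCl q)) q
  rw [← h1, PadicAlgCl.norm_extends, Padic.norm_p]
  have hq : (1 : ℝ) < q := by exact_mod_cast (Fact.out : q.Prime).one_lt
  exact inv_lt_one_of_one_lt₀ hq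

/-- Every element of the unit ball of `ℚ̄_q` is fixed modulo the maximal ideal by a power of the
Frobenius: `x ^ Q ≡ x` with `Q > 1` a power of `q` (the order of the residue field of `ℚ_q(x)`). -/
theorem exists_pow_card_sub_lt544 (x : PadicAlgCl q) (hx : ‖x‖ ≤ 1) :
    ∃ Q : ℕ, q ∣ Q ∧ 1 < Q ∧ ‖x ^ Q - x‖ < 1 := by
  have hint : IsIntegral ℚ_[q] x := Algebra.IsIntegral.isIntegral x
  set E : IntermediateField ℚ_[q] (PadicAlgCl q) := IntermediateField.adjoin ℚ_[q] {x} with hE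
  haveI : FiniteDimensional ℚ_[q] E := IntermediateField.adjoin.finiteDimensional hint
  obtain ⟨A, ⟨hdvr, -, hfin⟩, hmem⟩ := L.exists_ringOfIntegers_eq_unitBall63 q E
  haveI := hfin
  have hA : ∀ y : E, y ∈ A ↔ ‖(algebraMap E (PadicAlgCl q)) y‖ ≤ 1 := hmem
  letI : Fintype (IsLocalRing.ResidueField A) := Fintype.ofFinite _
  set Q : ℕ := Fintype.card (IsLocalRing.ResidueField A) with hQ
  -- the residue characteristic
  have hq0 : ((q : ℕ) : IsLocalRing.ResidueField A) = 0 := by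
    have h1 : ((q : ℕ) : A) ∈ IsLocalRing.maximalIdeal A := by
      rw [mem_maximalIdeal_iff_norm544 _ A hA]
      have : (algebraMap E (PadicAlgCl q)) (((q : ℕ) : A) : E) = (q : PadicAlgCl q) := by
        simp
      rw [this]
      exact norm_prime_lt_one544 q
    have h2 := (IsLocalRing.residue_eq_zero_iff ((q : ℕ) : A)).2 h1
    rwa [map_natCast] at h2
  haveI : CharP (IsLocalRing.ResidueField A) q :=
    (CharP.charP_iff_prime_eq_zero (Fact.out : q.Prime)).2 hq0
  obtain ⟨n, -, hn⟩ := FiniteField.card (IsLocalRing.ResidueField A) q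
  have hqQ : q ∣ Q := by
    rw [hQ, hn]
    exact dvd_pow_self q n.ne_zero
  have hQ1 : 1 < Q := Fintype.one_lt_card
  refine ⟨Q, hqQ, hQ1, ?_⟩
  -- the element
  let x' : E := ⟨x, IntermediateField.subset_adjoin ℚ_[q] {x} rfl⟩
  have hx' : x' ∈ A := (hmem x').2 hx
  let xA : A := ⟨x', hx'⟩
  have h1 : IsLocalRing.residue A (xA ^ Q - xA) = 0 := by
    rw [map_sub, map_pow, hQ, FiniteField.pow_card, sub_self]
  have h2 := (IsLocalRing.residue_eq_zero_iff _).1 h1
  rw [mem_maximalIdeal_iff_norm544 _ A hA] at h2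
  exact h2

/-- **Teichmüller representatives.**  Every `x` of norm `1` is congruent modulo the maximal ideal
to a root of unity of order prime to `q`. -/
theorem exists_rootOfUnity_near544 (x : PadicAlgCl q) (hx : ‖x‖ = 1) :
    ∃ (r : ℕ) (ζ : PadicAlgCl q), ¬ q ∣ r ∧ ζ ^ r = 1 ∧ ‖x - ζ‖ < 1 := by
  obtain ⟨Q, hqQ, hQ1, hlt⟩ := exists_pow_card_sub_lt544 q x hx.le
  have hq2 : 2 ≤ q := (Fact.out : q.Prime).two_le
  have hr : ¬ q ∣ Q - 1 := by
    intro h
    have h1 : q ∣ Q - (Q - 1) := Nat.dvd_sub hqQ h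
    have h2 : Q - (Q - 1) = 1 := by omega
    rw [h2, Nat.dvd_one] at h1
    omega
  have hr0 : Q - 1 ≠ 0 := by omega
  have hfac : x ^ Q - x = x * (x ^ (Q - 1) - 1) := by
    have : Q = (Q - 1) + 1 := by omega
    conv_lhs => rw [this, pow_succ]
    ring
  rw [hfac, norm_mul, hx, one_mul] at hlt
  -- factor `X ^ r - 1`
  set P : (PadicAlgCl q)[X] := X ^ (Q - 1) - 1 with hP
  have hPm : P.Monic := monic_X_pow_sub_C 1 hr0
  have hsplit : P.Splits := IsAlgClosed.splits P
  have heval : P.eval x = (P.roots.map fun a => x - a).prod :=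
    hsplit.eval_eq_prod_roots_of_monic hPm x
  have hev : P.eval x = x ^ (Q - 1) - 1 := by simp [hP]
  rw [hev] at heval
  by_contra hcon
  have hall : ∀ a ∈ P.roots.map fun a => x - a, 1 ≤ ‖a‖ := by
    intro a ha
    rw [Multiset.mem_map] at ha
    obtain ⟨ζ, hζ, rfl⟩ := ha
    by_contra hlt'
    rw [not_le] at hlt'
    apply hcon
    refine ⟨Q - 1, ζ, hr, ?_, hlt'⟩
    have h0 := (mem_roots hPm.ne_zero).1 hζ
    rw [IsRoot.def, hP] at h0
    simp only [eval_sub, eval_pow, eval_X, eval_one] at h0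
    exact sub_eq_zero.1 h0
  have := one_le_norm_multiset_prod544 _ hall
  rw [← heval] at this
  exact absurd hlt (not_lt.2 this)

/-- An automorphism fixing all roots of unity of order prime to `q` is inertial. -/
theorem isInertial_of_fixes_roots544 (τ : Gq)
    (hτ : ∀ (r : ℕ) (ζ : PadicAlgCl q), ¬ q ∣ r → ζ ^ r = 1 → τ ζ = ζ) : IsInertial q τ := by
  intro x hx
  rcases lt_or_eq_of_le hx with hlt | heq
  · exact norm_sub_lt_one544 q (by rwa [norm_galois544]) hlt
  · obtain ⟨r, ζ, hr, hζ, hnear⟩ := exists_rootOfUnity_near544 q x heq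
    have e : τ x - x = τ (x - ζ) - (x - ζ) := by
      rw [map_sub, hτ r ζ hr hζ]
      ring
    rw [e]
    exact norm_sub_lt_one544 q (by rwa [norm_galois544]) hnear

/-- Inertial automorphisms fix the roots of unity of order prime to `q`. -/
theorem fixes_roots_of_isInertial544 (τ : Gq) (hτ : IsInertial q τ) (r : ℕ) (ζ : PadicAlgCl q)
    (hr : ¬ q ∣ r) (hζ : ζ ^ r = 1) : τ ζ = ζ :=
  (H533.cycloFrob533 q r hr).1 τ hτ ζ hζ

end Fermat.Agent.S55.G.Rec.Loc.H544
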