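import Fermat.Agent.S55.G.Rec.Loc.Spec
import Fermat.Agent.S55.Bridge.Krasner
import Fermat.Agent.S55.G.Rec.H473Carry
import Fermat.Agent.S55.G.Rec.Loc.UnifH544.Norm

/-!
# S55 / G / REC / LOC, leaf LOC-UNIF (helper544), part 3: Galois theory

* `exists_level_of_cupChar544`: a character `χ` whose cup cocycle with a non-unit `π` is
  level-constant is continuous (trivial on `V ∩ Gal(ℚ̄_q / E₁)`, `E₁ / ℚ_q` finite);
* `exists_cyclotomic_level544`: a continuous unramified character of an open subgroup `V` is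
  trivial on the elements of `V` fixing `μ_r`, for some `r` prime to `q`  (infinite Galois
  theory: the fixed field of `ker χ` is contained in `K_V(μ')`, `μ'` the roots of unity of order
  prime to `q`, because an automorphism fixing `μ'` is inertial);
* `cycLevel544 q V r = K_V(μ_r)`, finite Galois over `K_V`;
* `resHom_surjective544`, `descChar544`: the character induced on `Gal(K_V(μ_r) / K_V)`.
-/

set_option autoImplicit false
set_option linter.unusedSectionVars false

noncomputable section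

namespace Fermat.Agent.S55.G.Rec.Loc.H544

open groupCohomology Fermat.Agent.S55.G.Rec Fermat.Agent.S55.G.Rec.Loc

variable (q : ℕ) [Fact q.Prime]

local notation "Gq" => (PadicAlgCl q ≃ₐ[ℚ_[q]] PadicAlgCl q)

/-! ### Continuity of the character -/

theorem toLMod_nsmul544 (V : Subgroup Gq) (x : (PadicAlgCl q)ˣ) (k : ℕ) :
    k • toLMod q V x = toLMod q V (x ^ k) := rfl

theorem toLMod_injective544 (V : Subgroup Gq) : Function.Injective (toLMod q V) :=
  fun _ _ h => h

theorem isCupChar_apply544 {G A : Type*} [Group G] [AddCommGroup A] {n : ℕ} {a : A}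
    {χ : G →* Multiplicative (ZMod n)} {c : G × G → A} (hc : IsCupChar a χ c) (g h : G) :
    c (g, h) = carry χ g h • a := hc g h

/-- A power of a non-unit is `1` only for the exponent `0`. -/
theorem pow_eq_one_imp544 (π : (PadicAlgCl q)ˣ) (hπ : ‖(π : PadicAlgCl q)‖ < 1) (k : ℕ)
    (hk : π ^ k = 1) : k = 0 := by
  by_contra h0
  have h1 : ‖((π ^ k : (PadicAlgCl q)ˣ) : PadicAlgCl q)‖ < 1 := by
    rw [Units.val_pow_eq_pow_val, norm_pow]
    exact pow_lt_one₀ (norm_nonneg _) hπ h0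
  rw [hk, Units.val_one, norm_one] at h1
  exact lt_irrefl _ h1

/-- **Continuity.**  If the cup cocycle of `χ` with a non-unit `π` is level-constant then `χ` is
trivial on `V ∩ Gal(ℚ̄_q / E₁)` for some finite extension `E₁ / ℚ_q`. -/
theorem exists_level_of_cupChar544 (V : Subgroup Gq) (n : ℕ) [NeZero n]
    (χ : ↥V →* Multiplicative (ZMod n)) (π : (PadicAlgCl q)ˣ) (hπ : ‖(π : PadicAlgCl q)‖ < 1)
    (c : ↥(levelCocycles₂ (lHom q V) (lModOn q V)))
    (hc : IsCupChar (toLMod q V π) χ (c : ↥V × ↥V → lModOn q V)) :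
    ∃ E₁ : IntermediateField ℚ_[q] (PadicAlgCl q), FiniteDimensional ℚ_[q] E₁ ∧
      ∀ τ : ↥V, (τ : Gq) ∈ E₁.fixingSubgroup → χ τ = 1 := by
  obtain ⟨-, F, hF, hconst⟩ := (mem_levelCocycles₂_iff _ _ _).1 c.2
  haveI := hF
  obtain ⟨E₁, hE₁, hloc⟩ := Bridge.exists_local_level_of_global q F
  refine ⟨E₁, hE₁, fun τ hτ => ?_⟩
  have hτF : lHom q V τ ∈ F.fixingSubgroup := hloc _ hτ
  have h1F : lHom q V 1 ∈ F.fixingSubgroup := by
    rw [map_one]
    exact Subgroup.one_mem _
  have h1 := hconst 1 τ⁻¹ τ 1 hτF h1F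
  rw [one_mul, mul_one, isCupChar_apply544 hc, isCupChar_apply544 hc, carry_one_left, zero_smul,
    toLMod_nsmul544] at h1
  have h2 : π ^ carry χ τ τ⁻¹ = 1 := toLMod_injective544 q V h1
  have h3 : carry χ τ τ⁻¹ = 0 := pow_eq_one_imp544 q π hπ _ h2
  have h4 := lift_add_lift χ τ τ⁻¹
  rw [h3, mul_zero, add_zero, mul_inv_cancel, lift_map_one] at h4
  have h5 : lift χ τ = 0 := by omega
  have h6 : Multiplicative.toAdd (χ τ) = 0 := (ZMod.val_eq_zero _).1 h5
  exact h6

/-! ### The cyclotomic level -/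

/-- **Unramified continuous characters are trivial on `Gal(ℚ̄_q / K_V(μ_r))`** for some `r` prime
to `q`. -/
theorem exists_cyclotomic_level544 (hO : OpenSpec) (V : Subgroup Gq) (hV : IsOpenL q V) (n : ℕ)
    (χ : ↥V →* Multiplicative (ZMod n))
    (hχ : ∀ τ : ↥V, IsInertial q (τ : Gq) → χ τ = 1)
    (hcont : ∃ E₁ : IntermediateField ℚ_[q] (PadicAlgCl q), FiniteDimensional ℚ_[q] E₁ ∧
      ∀ τ : ↥V, (τ : Gq) ∈ E₁.fixingSubgroup → χ τ = 1) :
    ∃ r : ℕ, 0 < r ∧ ¬ q ∣ r ∧
      ∀ τ : ↥V, (∀ ζ : PadicAlgCl q, ζ ^ r = 1 → (τ : Gq) ζ = ζ) → χ τ = 1 := by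
  classical
  obtain ⟨E₁, hE₁, hE₁χ⟩ := hcont
  obtain ⟨E₀, hE₀, hE₀V⟩ := id hV
  obtain ⟨hKfin, hKfix⟩ := hO q V hV
  set H : Subgroup Gq := χ.ker.map V.subtype with hH
  have hHmem : ∀ τ : Gq, τ ∈ H ↔ ∃ h : τ ∈ V, χ ⟨τ, h⟩ = 1 := by
    intro τ
    rw [hH, Subgroup.mem_map]
    constructor
    · rintro ⟨x, hx, rfl⟩
      exact ⟨x.2, MonoidHom.mem_ker.1 hx⟩
    · rintro ⟨h, hh⟩
      exact ⟨⟨τ, h⟩, MonoidHom.mem_ker.2 hh, rfl⟩
  have hHopen : IsOpenL q H := by
    haveI := hE₁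
    haveI := hE₀
    refine ⟨E₁ ⊔ E₀, inferInstance, fun τ hτ => ?_⟩
    have h0 : τ ∈ V := hE₀V (IntermediateField.fixingSubgroup_antitone le_sup_right hτ)
    have h1 := hE₁χ ⟨τ, h0⟩ (IntermediateField.fixingSubgroup_antitone le_sup_left hτ)
    exact (hHmem τ).2 ⟨h0, h1⟩
  obtain ⟨hMfin, hMfix⟩ := hO q H hHopen
  -- the fixed field of `H` is contained in `W = K_V(μ')`
  set μ' : Set (PadicAlgCl q) := {ζ | ∃ r : ℕ, ¬ q ∣ r ∧ ζ ^ r = 1} with hμ'
  set W : IntermediateField ℚ_[q] (PadicAlgCl q) :=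
    IntermediateField.adjoin ℚ_[q] ((fixedFld q V : Set (PadicAlgCl q)) ∪ μ') with hW
  have hWH : W.fixingSubgroup ≤ H := by
    intro τ hτ
    rw [IntermediateField.mem_fixingSubgroup_iff] at hτ
    have hτV : τ ∈ V := by
      rw [← hKfix, IntermediateField.mem_fixingSubgroup_iff]
      intro x hx
      exact hτ x (IntermediateField.subset_adjoin _ _ (Or.inl hx))
    have hin : IsInertial q τ := isInertial_of_fixes_roots544 q τ fun r ζ hr hζ =>
      hτ ζ (IntermediateField.subset_adjoin _ _ (Or.inr ⟨r, hr, hζ⟩))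
    exact (hHmem τ).2 ⟨hτV, hχ ⟨τ, hτV⟩ hin⟩
  have hMW : fixedFld q H ≤ W := by
    have h1 : IntermediateField.fixedField H ≤ IntermediateField.fixedField W.fixingSubgroup :=
      IntermediateField.fixedField_le hWH
    rwa [InfiniteGalois.fixedField_fixingSubgroup] at h1
  -- a primitive element of the fixed field of `H`
  haveI := hMfin
  obtain ⟨α, hα⟩ := Field.exists_primitive_element ℚ_[q] (fixedFld q H)
  have hαW : (α : PadicAlgCl q) ∈ W := hMW α.2
  obtain ⟨T, hTsub, hαT⟩ := IntermediateField.exists_finset_of_mem_adjoin hαW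
  -- orders
  have hord : ∀ t : PadicAlgCl q, ∃ r : ℕ, 0 < r ∧ ¬ q ∣ r ∧ (t ∈ μ' → t ^ r = 1) := by
    intro t
    by_cases ht : t ∈ μ'
    · obtain ⟨r, hr, hζ⟩ := ht
      refine ⟨r, ?_, hr, fun _ => hζ⟩
      rcases Nat.eq_zero_or_pos r with h0 | h0
      · exact absurd (h0 ▸ dvd_zero q) hr
      · exact h0
    · refine ⟨1, one_pos, fun h => ?_, fun h => absurd h ht⟩
      exact (Fact.out : q.Prime).one_lt.ne' (Nat.dvd_one.1 h)
  choose ord hord0 hordq hordpow using hord
  refine ⟨∏ t ∈ T, ord t, Finset.prod_pos fun t _ => hord0 t, ?_, ?_⟩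
  · intro hdiv
    obtain ⟨t, -, ht⟩ := (Prime.dvd_finsetProd_iff (Nat.Prime.prime Fact.out) _).1 hdiv
    exact hordq t ht
  · intro τ hτ
    have hfixT : ∀ t ∈ T, (τ : Gq) t = t := by
      intro t ht
      rcases hTsub ht with hK | hμ
      · exact (IntermediateField.mem_fixedField_iff _ _).1 hK τ τ.2
      · apply hτ
        obtain ⟨k, hk⟩ := Finset.dvd_prod_of_mem ord ht
        rw [hk, pow_mul, hordpow t hμ, one_pow]
    have hτα : (τ : Gq) (α : PadicAlgCl q) = α := by
      have hle : IntermediateField.adjoin ℚ_[q] (T : Set (PadicAlgCl q)) ≤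
          IntermediateField.fixedField (Subgroup.zpowers (τ : Gq)) := by
        rw [IntermediateField.adjoin_le_iff]
        intro t ht
        rintro ⟨σ, hσ⟩
        obtain ⟨m, rfl⟩ := Subgroup.mem_zpowers_iff.1 hσ
        have hfix : (τ : Gq) ∈ MulAction.stabilizer Gq t := hfixT t ht
        exact (Subgroup.zpow_mem _ hfix m : _)
      exact hle hαT ⟨τ, Subgroup.mem_zpowers _⟩
    have hτM : (τ : Gq) ∈ (fixedFld q H).fixingSubgroup := by
      rw [IntermediateField.mem_fixingSubgroup_iff]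
      intro y hy
      have hy' : (⟨y, hy⟩ : fixedFld q H) ∈ IntermediateField.adjoin ℚ_[q] {α} := by
        rw [hα]; trivial
      have hle : IntermediateField.adjoin ℚ_[q] {(α : PadicAlgCl q)} ≤
          IntermediateField.fixedField (Subgroup.zpowers (τ : Gq)) := by
        rw [IntermediateField.adjoin_le_iff]
        rintro z hz
        rw [Set.mem_singleton_iff] at hz
        subst hz
        rintro ⟨σ, hσ⟩
        obtain ⟨m, rfl⟩ := Subgroup.mem_zpowers_iff.1 hσ
        have hfix : (τ : Gq) ∈ MulAction.stabilizer Gq (α : PadicAlgCl q) := hτα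
        exact (Subgroup.zpow_mem _ hfix m : _)
      have hyα : y ∈ IntermediateField.adjoin ℚ_[q] {(α : PadicAlgCl q)} := by
        have h1 : IntermediateField.lift (IntermediateField.adjoin ℚ_[q] {α}) =
            IntermediateField.adjoin ℚ_[q] {(α : PadicAlgCl q)} := by
          rw [IntermediateField.lift_adjoin, Set.image_singleton]
        rw [← h1]
        exact (IntermediateField.mem_lift (⟨y, hy⟩ : fixedFld q H)).2 hy'
      exact hle hyα ⟨τ, Subgroup.mem_zpowers _⟩
    rw [hMfix] at hτM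
    obtain ⟨h, hh⟩ := (hHmem _).1 hτM
    exact hh

/-! ### The level `K_V(μ_r)` -/

/-- The polynomial `X ^ r - 1` over `K_V`. -/
def cycPoly544 (V : Subgroup Gq) (r : ℕ) : Polynomial (fixedFld q V) := Polynomial.X ^ r - 1

/-- The level `K_V(μ_r)`. -/
def cycLevel544 (V : Subgroup Gq) (r : ℕ) : IntermediateField (fixedFld q V) (PadicAlgCl q) :=
  IntermediateField.adjoin (fixedFld q V) ((cycPoly544 q V r).rootSet (PadicAlgCl q))

theorem cycPoly_ne_zero544 (V : Subgroup Gq) {r : ℕ} (hr : 0 < r) : cycPoly544 q V r ≠ 0 :=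
  (Polynomial.monic_X_pow_sub_C (1 : fixedFld q V) hr.ne').ne_zero

theorem mem_rootSet_cycPoly544 (V : Subgroup Gq) {r : ℕ} (hr : 0 < r) (ζ : PadicAlgCl q) :
    ζ ∈ (cycPoly544 q V r).rootSet (PadicAlgCl q) ↔ ζ ^ r = 1 := by
  rw [Polynomial.mem_rootSet_of_ne (cycPoly_ne_zero544 q V hr), cycPoly544]
  simp [sub_eq_zero]

theorem isSplittingField_cycLevel544 (V : Subgroup Gq) (r : ℕ) :
    Polynomial.IsSplittingField (fixedFld q V) (cycLevel544 q V r) (cycPoly544 q V r) :=
  IntermediateField.adjoin_rootSet_isSplittingField (IsAlgClosed.splits _)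

theorem normal_cycLevel544 (V : Subgroup Gq) (r : ℕ) :
    Normal (fixedFld q V) (cycLevel544 q V r) :=
  haveI := isSplittingField_cycLevel544 q V r
  Normal.of_isSplittingField (cycPoly544 q V r)

theorem finiteDimensional_cycLevel544 (V : Subgroup Gq) (r : ℕ) :
    FiniteDimensional (fixedFld q V) (cycLevel544 q V r) :=
  haveI := isSplittingField_cycLevel544 q V r
  Polynomial.IsSplittingField.finiteDimensional _ (cycPoly544 q V r)

theorem isGalois_cycLevel544 (V : Subgroup Gq) (r : ℕ) :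
    IsGalois (fixedFld q V) (cycLevel544 q V r) :=
  haveI := normal_cycLevel544 q V r
  ⟨⟩

/-- An automorphism of `K_V(μ_r)` fixing `μ_r` is trivial. -/
theorem eq_one_of_fixes_roots544 (V : Subgroup Gq) {r : ℕ} (hr : 0 < r)
    (σ : cycLevel544 q V r ≃ₐ[fixedFld q V] cycLevel544 q V r)
    (hσ : ∀ x : cycLevel544 q V r, (x : PadicAlgCl q) ^ r = 1 → σ x = x) : σ = 1 := by
  apply AlgEquiv.ext
  rintro ⟨x, hx⟩
  rw [AlgEquiv.one_apply]
  induction hx using IntermediateField.adjoin_induction with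
  | mem y hy =>
    exact hσ _ ((mem_rootSet_cycPoly544 q V hr y).1 hy)
  | algebraMap y =>
    exact σ.commutes y
  | add y z hy hz ihy ihz =>
    have : (⟨y + z, add_mem hy hz⟩ : cycLevel544 q V r) = ⟨y, hy⟩ + ⟨z, hz⟩ := rfl
    rw [this, map_add, ihy, ihz]
  | inv y hy ihy =>
    have : (⟨y⁻¹, inv_mem hy⟩ : cycLevel544 q V r) = (⟨y, hy⟩ : cycLevel544 q V r)⁻¹ := rfl
    rw [this, map_inv₀, ihy]
  | mul y z hy hz ihy ihz =>
    have : (⟨y * z, mul_mem hy hz⟩ : cycLevel544 q V r) = ⟨y, hy⟩ * ⟨z, hz⟩ := rfl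
    rw [this, map_mul, ihy, ihz]

/-! ### Restriction to a finite level -/

/-- Restriction `V → Gal(E / K_V)` is surjective, if `V = Gal(ℚ̄_q / K_V)`. -/
theorem resHom_surjective544 (V : Subgroup Gq) (hfix : (fixedFld q V).fixingSubgroup = V)
    (E : IntermediateField (fixedFld q V) (PadicAlgCl q)) [Normal (fixedFld q V) E] :
    Function.Surjective (resHom q V E) := by
  intro σ
  obtain ⟨τ, hτ⟩ := AlgEquiv.restrictNormalHom_surjective (PadicAlgCl q) σ
  have hmem' : (τ.restrictScalars ℚ_[q] : Gq) ∈ (fixedFld q V).fixingSubgroup := by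
    rw [IntermediateField.mem_fixingSubgroup_iff]
    intro x hx
    exact τ.commutes ⟨x, hx⟩
  have hmem : (τ.restrictScalars ℚ_[q] : Gq) ∈ V := hfix.le hmem'
  refine ⟨⟨τ.restrictScalars ℚ_[q], hmem⟩, ?_⟩
  have h1 : toAbsGal q V ⟨τ.restrictScalars ℚ_[q], hmem⟩ = τ := by
    apply AlgEquiv.ext
    intro x
    rw [toAbsGal_apply]
    rfl
  rw [← hτ, resHom, MonoidHom.comp_apply, h1]

/-- Elements of `Gal(E / K_V)` are isometries. -/
theorem norm_resHom544 (V : Subgroup Gq)
    (E : IntermediateField (fixedFld q V) (PadicAlgCl q)) [Normal (fixedFld q V) E]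
    (g : ↥V) (x : E) : ‖((resHom q V E g x : E) : PadicAlgCl q)‖ = ‖(x : PadicAlgCl q)‖ := by
  rw [resHom_apply_coe, norm_galois544]

theorem norm_algEquiv544 (V : Subgroup Gq) (hfix : (fixedFld q V).fixingSubgroup = V)
    (E : IntermediateField (fixedFld q V) (PadicAlgCl q)) [Normal (fixedFld q V) E]
    (σ : E ≃ₐ[fixedFld q V] E) (x : E) : ‖((σ x : E) : PadicAlgCl q)‖ = ‖(x : PadicAlgCl q)‖ := by
  obtain ⟨g, rfl⟩ := resHom_surjective544 q V hfix E σ
  exact norm_resHom544 q V E g x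

/-- The kernel of restriction to `K_V(μ_r)` fixes `μ_r`. -/
theorem fixes_of_resHom_eq_one544 (V : Subgroup Gq) {r : ℕ} (hr : 0 < r) (g : ↥V)
    (hg : haveI := normal_cycLevel544 q V r; resHom q V (cycLevel544 q V r) g = 1)
    (ζ : PadicAlgCl q) (hζ : ζ ^ r = 1) : (g : Gq) ζ = ζ := by
  haveI := normal_cycLevel544 q V r
  have hmem : ζ ∈ cycLevel544 q V r :=
    IntermediateField.subset_adjoin _ _ ((mem_rootSet_cycPoly544 q V hr ζ).2 hζ)
  have h1 := resHom_apply_coe q V (cycLevel544 q V r) g ⟨ζ, hmem⟩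
  rw [hg, AlgEquiv.one_apply] at h1
  exact h1.symm

/-- The character induced on a finite level through which it factors. -/
def descChar544 (V : Subgroup Gq) (E : IntermediateField (fixedFld q V) (PadicAlgCl q))
    [Normal (fixedFld q V) E] {n : ℕ} (χ : ↥V →* Multiplicative (ZMod n))
    (hsurj : Function.Surjective (resHom q V E))
    (hker : (resHom q V E).ker ≤ χ.ker) :
    (E ≃ₐ[fixedFld q V] E) →* Multiplicative (ZMod n) :=
  (resHom q V E).liftOfSurjective hsurj ⟨χ, hker⟩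

theorem descChar_resHom544 (V : Subgroup Gq)
    (E : IntermediateField (fixedFld q V) (PadicAlgCl q))
    [Normal (fixedFld q V) E] {n : ℕ} (χ : ↥V →* Multiplicative (ZMod n))
    (hsurj : Function.Surjective (resHom q V E))
    (hker : (resHom q V E).ker ≤ χ.ker) (g : ↥V) :
    descChar544 q V E χ hsurj hker (resHom q V E g) = χ g :=
  MonoidHom.liftOfRightInverse_comp_apply _ _ _ ⟨χ, hker⟩ g

end Fermat.Agent.S55.G.Rec.Loc.H544
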